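/-
S52 / piece B3 (Hilbert irreducibility by hand), helper531.
Part 4: an integer sequence asymptotic to a real polynomial sequence of degree `≤ w`
forces `w! * (coefficient of X^w)` to be an integer.
-/
import Mathlib

namespace Fermat.Agent.S52.H531

open Polynomial Finset Filter Topology
open scoped fwdDiff Nat

/-- The `w`-th forward difference, written as an explicit sum of shifts. -/
noncomputable def Dw (w : ℕ) (f : ℕ → ℝ) (k : ℕ) : ℝ :=
  ∑ j ∈ range (w + 1), (((-1 : ℤ) ^ (w - j) * (w.choose j : ℤ) : ℤ) : ℝ) * f (k + j)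

theorem Dw_sub (w : ℕ) (f g : ℕ → ℝ) (k : ℕ) :
    Dw w (fun i => f i - g i) k = Dw w f k - Dw w g k := by
  unfold Dw
  rw [← Finset.sum_sub_distrib]
  apply Finset.sum_congr rfl
  intro j _
  ring

theorem Dw_int (w : ℕ) (u : ℕ → ℤ) (k : ℕ) :
    ∃ N : ℤ, Dw w (fun i => (u i : ℝ)) k = (N : ℝ) := by
  refine ⟨∑ j ∈ range (w + 1), ((-1 : ℤ) ^ (w - j) * (w.choose j : ℤ)) * u (k + j), ?_⟩
  unfold Dw
  push_cast
  rfl

theorem Dw_tendsto_zero (w : ℕ) (e : ℕ → ℝ) (he : Tendsto e atTop (𝓝 0)) :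
    Tendsto (Dw w e) atTop (𝓝 0) := by
  unfold Dw
  have : (0 : ℝ) = ∑ j ∈ range (w + 1), (((-1 : ℤ) ^ (w - j) * (w.choose j : ℤ) : ℤ) : ℝ) * 0 := by
    simp
  rw [this]
  apply tendsto_finsetSum
  intro j _
  apply Tendsto.const_mul
  have hshift : Tendsto (fun k : ℕ => k + j) atTop atTop := tendsto_add_atTop_nat j
  exact he.comp hshift

theorem Dw_poly (w : ℕ) (Q : ℝ[X]) (hQ : Q.natDegree ≤ w) (k : ℕ) :
    Dw w (fun i => Q.eval (i : ℝ)) k = (w ! : ℝ) * Q.coeff w := by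
  have h1 : Dw w (fun i => Q.eval (i : ℝ)) k = ((fwdDiff (1 : ℝ))^[w] Q.eval) (k : ℝ) := by
    rw [fwdDiff_iter_eq_sum_shift]
    unfold Dw
    apply Finset.sum_congr rfl
    intro j _
    simp only [zsmul_eq_mul, nsmul_eq_mul, mul_one, Nat.cast_add]
  rw [h1]
  rcases Nat.lt_or_ge Q.natDegree w with hlt | hge
  · rw [Polynomial.fwdDiff_iter_eq_zero_of_degree_lt hlt]
    rw [coeff_eq_zero_of_natDegree_lt hlt]
    simp
  · have heq : Q.natDegree = w := le_antisymm hQ hge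
    have := Polynomial.fwdDiff_iter_degree_eq_factorial Q
    rw [heq] at this
    rw [this]
    simp only [Pi.smul_apply, smul_eq_mul]
    rw [leadingCoeff, heq]
    simp [mul_comm]

/-- A convergent sequence of integers (viewed in `ℝ`) has an integer limit. -/
theorem int_limit {I : ℕ → ℤ} {L : ℝ} (h : Tendsto (fun k => (I k : ℝ)) atTop (𝓝 L)) :
    ∃ N : ℤ, (N : ℝ) = L := by
  have hclosed : IsClosed (Set.range ((↑) : ℤ → ℝ)) :=
    Int.isClosedEmbedding_coe_real.isClosed_range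
  have : L ∈ Set.range ((↑) : ℤ → ℝ) :=
    hclosed.mem_of_tendsto h (Filter.Eventually.of_forall fun k => ⟨I k, rfl⟩)
  exact this

/-- Main lemma of this file. -/
theorem factorial_mul_coeff_int (w : ℕ) (Q : ℝ[X]) (hQ : Q.natDegree ≤ w) (u : ℕ → ℤ)
    (hlim : Tendsto (fun k : ℕ => (u k : ℝ) - Q.eval (k : ℝ)) atTop (𝓝 0)) :
    ∃ N : ℤ, (N : ℝ) = (w ! : ℝ) * Q.coeff w := by
  have h0 := Dw_tendsto_zero w _ hlim
  have hI : ∀ k, ∃ N : ℤ, Dw w (fun i => (u i : ℝ)) k = (N : ℝ) := Dw_int w u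
  choose I hIk using hI
  have h1 : ∀ k, Dw w (fun i : ℕ => (u i : ℝ) - Q.eval (i : ℝ)) k
      = (I k : ℝ) - (w ! : ℝ) * Q.coeff w := by
    intro k
    rw [Dw_sub, hIk, Dw_poly w Q hQ]
  have h2 : Tendsto (fun k => (I k : ℝ)) atTop (𝓝 ((w ! : ℝ) * Q.coeff w)) := by
    have h3 : Tendsto (fun k => (I k : ℝ) - (w ! : ℝ) * Q.coeff w) atTop (𝓝 0) := by
      have : (fun k => (I k : ℝ) - (w ! : ℝ) * Q.coeff w)
          = Dw w (fun i : ℕ => (u i : ℝ) - Q.eval (i : ℝ)) := by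
        funext k; rw [h1]
      rw [this]; exact h0
    have h4 := h3.add_const ((w ! : ℝ) * Q.coeff w)
    simpa using h4
  exact int_limit h2

end Fermat.Agent.S52.H531
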