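/-
S52 / piece B3 (Hilbert irreducibility by hand), helper531.
Part 1: elementary algebra of the depressed quartic `3x⁴ + a x² + b x + c`
(the 3-division polynomial of a short Weierstrass curve, up to normalisation).
Mathlib only.
-/
import Mathlib

namespace Fermat.Agent.S52.H531

section Algebra

variable {R : Type*} [CommRing R]

/-- The depressed quartic `3x⁴ + a x² + b x + c`. -/
def quart (a b c x : R) : R := 3 * x ^ 4 + a * x ^ 2 + b * x + c

/-- Its derivative in `x`. -/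
def quartD (a b x : R) : R := 12 * x ^ 3 + 2 * a * x + b

/-- The second-order Taylor remainder factor. -/
def quartR (a x h : R) : R := 18 * x ^ 2 + 12 * x * h + 3 * h ^ 2 + a

theorem quart_taylor (a b c x h : R) :
    quart a b c (x + h) = quart a b c x + h * quartD a b x + h ^ 2 * quartR a x h := by
  unfold quart quartD quartR; ring

/-- `quart` at `z` in terms of the value at `p`: `q(z) = q(p) + (z - p) * Q`. -/
theorem quart_sub (a b c z p : R) :
    quart a b c z = quart a b c p + (z - p) * (quartD a b p + (z - p) * quartR a p (z - p)) := by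
  unfold quart quartD quartR; ring

/-- Weighted homogeneity of `quart`. -/
theorem quart_scale (a b c z s : R) :
    quart (s ^ 2 * a) (s ^ 3 * b) (s ^ 4 * c) (s * z) = s ^ 4 * quart a b c z := by
  unfold quart; ring

theorem map_quart {S : Type*} [CommRing S] (f : R →+* S) (a b c x : R) :
    f (quart a b c x) = quart (f a) (f b) (f c) (f x) := by
  unfold quart; simp [map_add, map_mul, map_pow, map_ofNat]

theorem map_quartD {S : Type*} [CommRing S] (f : R →+* S) (a b x : R) :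
    f (quartD a b x) = quartD (f a) (f b) (f x) := by
  unfold quartD; simp [map_add, map_mul, map_pow, map_ofNat]

theorem map_quartR {S : Type*} [CommRing S] (f : R →+* S) (a x h : R) :
    f (quartR a x h) = quartR (f a) (f x) (f h) := by
  unfold quartR; simp [map_add, map_mul, map_pow, map_ofNat]

/-- The coefficients attached to `(c₄, c₆)`: `ψ = 3X⁴ - 162 c₄ X² - 648 c₆ X - 729 c₄²`. -/
def cA (c4 : R) : R := -162 * c4
def cB (c6 : R) : R := -648 * c6
def cC (c4 : R) : R := -729 * c4 ^ 2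

/-- The quartic `3X⁴ - 162 c₄ X² - 648 c₆ X - 729 c₄²`. -/
def psiQ (c4 c6 x : R) : R := quart (cA c4) (cB c6) (cC c4) x

theorem psiQ_eq (c4 c6 x : R) :
    psiQ c4 c6 x = 3 * x ^ 4 - 162 * c4 * x ^ 2 - 648 * c6 * x - 729 * c4 ^ 2 := by
  unfold psiQ quart cA cB cC; ring

theorem map_psiQ {S : Type*} [CommRing S] (f : R →+* S) (c4 c6 x : R) :
    f (psiQ c4 c6 x) = psiQ (f c4) (f c6) (f x) := by
  unfold psiQ cA cB cC; rw [map_quart]; simp [map_mul, map_pow, map_neg, map_ofNat]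

/-- Weighted homogeneity of `psiQ`: weights `(2, 3, 1)`. -/
theorem psiQ_scale (c4 c6 z s : R) :
    psiQ (s ^ 2 * c4) (s ^ 3 * c6) (s * z) = s ^ 4 * psiQ c4 c6 z := by
  unfold psiQ quart cA cB cC; ring

end Algebra

section Real

/-- Roots of `psiQ` are simple when `c₄³ ≠ c₆²`. -/
theorem psiQ_deriv_ne_zero {F : Type*} [Field F] [CharZero F] {c4 c6 ρ : F}
    (hΔ : c4 ^ 3 ≠ c6 ^ 2) (hρ : psiQ c4 c6 ρ = 0) :
    quartD (cA c4) (cB c6) ρ ≠ 0 := by
  intro hd
  apply hΔ
  unfold psiQ quart cA cB cC at hρ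
  unfold quartD cA cB at hd
  -- f(ρ) = ρ³ - 27 c4 ρ - 54 c6 = 0
  have hf : ρ ^ 3 - 27 * c4 * ρ - 54 * c6 = 0 := by
    have h12 : (12 : F) ≠ 0 := by norm_num
    apply mul_left_cancel₀ h12
    linear_combination hd
  -- (3ρ² - 27 c4)² = 2 f f'' - ψ = 0
  have hsq : (3 * ρ ^ 2 - 27 * c4) ^ 2 = 0 := by
    linear_combination (12 * ρ) * hf - hρ
  have h1 : 3 * ρ ^ 2 - 27 * c4 = 0 := by
    exact pow_eq_zero_iff (n := 2) (by norm_num) |>.mp hsq
  have hc4 : c4 = ρ ^ 2 / 9 := by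
    field_simp
    linear_combination (-1 / 3 : F) * h1
  have hc6 : c6 = -(ρ ^ 3) / 27 := by
    field_simp
    have : 54 * c6 = ρ ^ 3 - 27 * c4 * ρ := by linear_combination -hf
    rw [hc4] at this
    linear_combination (1 / 2 : F) * this
  rw [hc4, hc6]
  ring

/-- The discriminant of `3x⁴ + a x² + b x + c`. -/
def quartDisc {R : Type*} [CommRing R] (a b c : R) : R :=
  6912 * c ^ 3 - 1152 * a ^ 2 * c ^ 2 + 1296 * a * b ^ 2 * c - 243 * b ^ 4 + 48 * a ^ 4 * c
    - 12 * a ^ 3 * b ^ 2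

theorem quartDisc_psi {R : Type*} [CommRing R] (c4 c6 : R) :
    quartDisc (cA c4) (cB c6) (cC c4) = -42845606719488 * (c4 ^ 3 - c6 ^ 2) ^ 2 := by
  unfold quartDisc cA cB cC; ring

/-- Three distinct roots determine the coefficients of the depressed quartic. -/
theorem quart_coeffs_of_three_roots {F : Type*} [Field F] {a b c x0 x1 x2 : F}
    (h01 : x0 ≠ x1) (h02 : x0 ≠ x2) (h12 : x1 ≠ x2)
    (h0 : quart a b c x0 = 0) (h1 : quart a b c x1 = 0) (h2 : quart a b c x2 = 0) :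
    a = 3 * (x0 * x1 + x0 * x2 + x1 * x2 - (x0 + x1 + x2) ^ 2) ∧
    b = 3 * ((x0 + x1 + x2) * (x0 * x1 + x0 * x2 + x1 * x2) - x0 * x1 * x2) ∧
    c = -3 * (x0 * x1 * x2 * (x0 + x1 + x2)) := by
  set α := a - 3 * (x0 * x1 + x0 * x2 + x1 * x2 - (x0 + x1 + x2) ^ 2) with hα
  set β := b - 3 * ((x0 + x1 + x2) * (x0 * x1 + x0 * x2 + x1 * x2) - x0 * x1 * x2) with hβ
  set γ := c + 3 * (x0 * x1 * x2 * (x0 + x1 + x2)) with hγ
  have e0 : α * x0 ^ 2 + β * x0 + γ = 0 := by
    rw [← h0]; simp only [hα, hβ, hγ]; unfold quart; ring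
  have e1 : α * x1 ^ 2 + β * x1 + γ = 0 := by
    rw [← h1]; simp only [hα, hβ, hγ]; unfold quart; ring
  have e2 : α * x2 ^ 2 + β * x2 + γ = 0 := by
    rw [← h2]; simp only [hα, hβ, hγ]; unfold quart; ring
  have d01 : α * (x0 + x1) + β = 0 := by
    have : (x0 - x1) * (α * (x0 + x1) + β) = 0 := by linear_combination e0 - e1
    rcases mul_eq_zero.mp this with h | h
    · exact absurd (sub_eq_zero.mp h) h01
    · exact h
  have d02 : α * (x0 + x2) + β = 0 := by
    have : (x0 - x2) * (α * (x0 + x2) + β) = 0 := by linear_combination e0 - e2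
    rcases mul_eq_zero.mp this with h | h
    · exact absurd (sub_eq_zero.mp h) h02
    · exact h
  have hα0 : α = 0 := by
    have : (x1 - x2) * α = 0 := by linear_combination d01 - d02
    rcases mul_eq_zero.mp this with h | h
    · exact absurd (sub_eq_zero.mp h) h12
    · exact h
  have hβ0 : β = 0 := by rw [hα0] at d01; simpa using d01
  have hγ0 : γ = 0 := by rw [hα0, hβ0] at e0; simpa using e0
  refine ⟨?_, ?_, ?_⟩
  · have := hα0; rw [hα] at this; linear_combination this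
  · have := hβ0; rw [hβ] at this; linear_combination this
  · have := hγ0; rw [hγ] at this; linear_combination this

/-- A depressed real quartic `3x⁴ + a x² + b x + c` with negative discriminant has at most
two real roots. -/
theorem quart_not_three_roots {a b c x0 x1 x2 : ℝ} (hdisc : quartDisc a b c < 0)
    (h01 : x0 ≠ x1) (h02 : x0 ≠ x2) (h12 : x1 ≠ x2)
    (h0 : quart a b c x0 = 0) (h1 : quart a b c x1 = 0) (h2 : quart a b c x2 = 0) : False := by
  obtain ⟨ha, hb, hc⟩ := quart_coeffs_of_three_roots h01 h02 h12 h0 h1 h2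
  have key : quartDisc a b c =
      729 * ((x0 - x1) * (x0 - x2) * (x1 - x2) * (x0 - (-(x0 + x1 + x2)))
        * (x1 - (-(x0 + x1 + x2))) * (x2 - (-(x0 + x1 + x2)))) ^ 2 := by
    rw [ha, hb, hc]; unfold quartDisc; ring
  rw [key] at hdisc
  nlinarith [sq_nonneg ((x0 - x1) * (x0 - x2) * (x1 - x2) * (x0 - (-(x0 + x1 + x2)))
        * (x1 - (-(x0 + x1 + x2))) * (x2 - (-(x0 + x1 + x2))))]

/-- The real roots of `psiQ c4 c6` are contained in a set of the form `{x0, x1}`. -/
theorem psiQ_roots_subset_pair {c4 c6 x0 : ℝ} (hΔ : c4 ^ 3 ≠ c6 ^ 2)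
    (h0 : psiQ c4 c6 x0 = 0) :
    ∃ x1 : ℝ, psiQ c4 c6 x1 = 0 ∧ ∀ ρ : ℝ, psiQ c4 c6 ρ = 0 → ρ = x0 ∨ ρ = x1 := by
  have hdisc : quartDisc (cA c4) (cB c6) (cC c4) < 0 := by
    rw [quartDisc_psi]
    have : 0 < (c4 ^ 3 - c6 ^ 2) ^ 2 := by
      have : c4 ^ 3 - c6 ^ 2 ≠ 0 := sub_ne_zero.mpr hΔ
      positivity
    linarith
  by_cases h : ∃ x1 : ℝ, psiQ c4 c6 x1 = 0 ∧ x1 ≠ x0
  · obtain ⟨x1, hx1, hne⟩ := h
    refine ⟨x1, hx1, fun ρ hρ => ?_⟩
    by_contra hcon
    rw [not_or] at hcon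
    exact quart_not_three_roots hdisc (Ne.symm hne) (Ne.symm hcon.1) (Ne.symm hcon.2) h0 hx1 hρ
  · refine ⟨x0, h0, fun ρ hρ => ?_⟩
    left
    by_contra hne
    exact h ⟨ρ, hρ, hne⟩

/-- A priori bound for the real roots of the depressed quartic. -/
theorem quart_root_bound {a b c z B : ℝ} (hB : 1 ≤ B) (ha : |a| ≤ B) (hb : |b| ≤ B) (hc : |c| ≤ B)
    (hz : quart a b c z = 0) : |z| ≤ B := by
  by_contra hcon
  rw [not_le] at hcon
  unfold quart at hz
  have hz1 : 1 < |z| := lt_of_le_of_lt hB hcon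
  have hpos : 0 < |z| := by linarith
  -- 3 z^4 = -(a z^2 + b z + c)
  have h4 : 3 * |z| ^ 4 = |a * z ^ 2 + b * z + c| := by
    have : a * z ^ 2 + b * z + c = -(3 * z ^ 4) := by linarith
    rw [this, abs_neg, abs_mul, abs_pow]
    norm_num
  have hle : |a * z ^ 2 + b * z + c| ≤ B * |z| ^ 2 + B * |z| + B := by
    calc |a * z ^ 2 + b * z + c| ≤ |a * z ^ 2| + |b * z| + |c| := abs_add_three _ _ _
      _ = |a| * |z| ^ 2 + |b| * |z| + |c| := by rw [abs_mul, abs_mul, abs_pow]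
      _ ≤ B * |z| ^ 2 + B * |z| + B := by
          have h1 : |a| * |z| ^ 2 ≤ B * |z| ^ 2 := by
            apply mul_le_mul_of_nonneg_right ha; positivity
          have h2 : |b| * |z| ≤ B * |z| := by
            apply mul_le_mul_of_nonneg_right hb; positivity
          linarith
  have hz2 : |z| ≤ |z| ^ 2 := by nlinarith
  have hz3 : |z| ^ 2 * |z| ≤ |z| ^ 4 := by nlinarith [sq_nonneg (|z|), sq_nonneg (|z| - 1)]
  have hB0 : 0 < B := by linarith
  -- B (z² + z + 1) ≤ 3 B z² < 3 z³ ≤ 3 z⁴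
  nlinarith [mul_pos hB0 hpos, mul_pos hpos hpos, sq_nonneg (|z|)]

end Real

end Fermat.Agent.S52.H531
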