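/-
S52 / piece B3 (Hilbert irreducibility by hand), helper531.
Part 2: truncated Newton (Hensel) lifting of a simple root of the depressed quartic
over a polynomial ring `F[X]`.
-/
import Fermat.Agent.S52.H531.Quartic

namespace Fermat.Agent.S52.H531

open Polynomial

theorem eval_zero_quart {F : Type*} [CommRing F] (A B C P : F[X]) :
    (quart A B C P).eval 0 = quart (A.eval 0) (B.eval 0) (C.eval 0) (P.eval 0) :=
  map_quart (evalRingHom (0 : F)) A B C P

theorem eval_quart {F : Type*} [CommRing F] (A B C P : F[X]) (t : F) :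
    (quart A B C P).eval t = quart (A.eval t) (B.eval t) (C.eval t) (P.eval t) :=
  map_quart (evalRingHom t) A B C P

theorem eval_zero_quartD {F : Type*} [CommRing F] (A B P : F[X]) :
    (quartD A B P).eval 0 = quartD (A.eval 0) (B.eval 0) (P.eval 0) :=
  map_quartD (evalRingHom (0 : F)) A B P

theorem X_dvd_of_eval_zero {F : Type*} [CommRing F] {p : F[X]} (h : p.eval 0 = 0) : X ∣ p := by
  rw [X_dvd_iff, coeff_zero_eq_eval_zero]; exact h

/-- Truncated Hensel lifting: a simple root `ρ` of the quartic at `t = 0` lifts to a polynomial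
`P` of degree `≤ k` with `P(0) = ρ` solving the quartic modulo `X^(k+1)`. -/
theorem exists_newton_trunc {F : Type*} [Field F] (A B C : F[X]) (ρ : F)
    (hρ : quart (A.eval 0) (B.eval 0) (C.eval 0) ρ = 0)
    (hd : quartD (A.eval 0) (B.eval 0) ρ ≠ 0) (k : ℕ) :
    ∃ P : F[X], P.eval 0 = ρ ∧ P.natDegree ≤ k ∧ X ^ (k + 1) ∣ quart A B C P := by
  induction k with
  | zero =>
    refine ⟨Polynomial.C ρ, by simp, by simp, ?_⟩
    rw [zero_add, pow_one]
    apply X_dvd_of_eval_zero
    rw [eval_zero_quart]; simpa using hρ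
  | succ k ih =>
    obtain ⟨P, hP0, hPdeg, G, hG⟩ := ih
    set d := quartD (A.eval 0) (B.eval 0) ρ with hd_def
    set c : F := -(G.eval 0) / d with hc
    set h : F[X] := Polynomial.C c * X ^ (k + 1) with hh
    refine ⟨P + h, ?_, ?_, ?_⟩
    · simp [hh, hP0]
    · apply (natDegree_add_le _ _).trans
      apply max_le (hPdeg.trans (Nat.le_succ k))
      rw [hh]
      exact (natDegree_C_mul_le _ _).trans (natDegree_X_pow_le _)
    · have hX : X ∣ G + Polynomial.C c * quartD A B P + Polynomial.C c * h * quartR A P h := by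
        apply X_dvd_of_eval_zero
        have hh0 : h.eval 0 = 0 := by simp [hh]
        rw [eval_add, eval_add, eval_mul, eval_mul, eval_mul, eval_C, eval_zero_quartD, hP0, hh0]
        rw [← hd_def, hc]
        field_simp
        ring
      obtain ⟨H, hH⟩ := hX
      refine ⟨H, ?_⟩
      rw [quart_taylor, hG]
      have : X ^ (k + 1) * G + h * quartD A B P + h ^ 2 * quartR A P h
          = X ^ (k + 1) * (G + Polynomial.C c * quartD A B P + Polynomial.C c * h * quartR A P h) := by
        rw [hh]; ring
      rw [this, hH]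
      ring

end Fermat.Agent.S52.H531
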