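/-
S52 / piece B3 (Hilbert irreducibility by hand), helper531.
Part 3: real estimates.  Root localisation for small `t`, and closeness of a real root to the
truncated Newton polynomial.
-/
import Fermat.Agent.S52.H531.Hensel

namespace Fermat.Agent.S52.H531

open Polynomial

/-- A real polynomial is bounded on `[-1, 1]`. -/
theorem exists_bound_on_unit (p : ℝ[X]) : ∃ M : ℝ, 0 ≤ M ∧ ∀ t : ℝ, |t| ≤ 1 → |p.eval t| ≤ M := by
  obtain ⟨M, hM⟩ := (isCompact_Icc (a := (-1 : ℝ)) (b := 1)).exists_bound_of_continuousOn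
    (f := fun t => p.eval t) p.continuous.continuousOn
  refine ⟨max M 0, le_max_right _ _, fun t ht => ?_⟩
  have := hM t ⟨(abs_le.mp ht).1, (abs_le.mp ht).2⟩
  rw [Real.norm_eq_abs] at this
  exact this.trans (le_max_left _ _)

/-- Local estimate: near a simple root `ρ` of the quartic at `t = 0`, every real root `z` of the
quartic at a small `t` is `O(|t|^(k+1))`-close to the value `P(t)` of an approximate root `P`. -/
theorem root_close_to_newton (A B C P G : ℝ[X]) (k : ℕ) (ρ : ℝ)
    (hP0 : P.eval 0 = ρ) (hG : quart A B C P = X ^ (k + 1) * G)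
    (hd : quartD (A.eval 0) (B.eval 0) ρ ≠ 0) :
    ∃ η : ℝ, 0 < η ∧ ∃ K : ℝ, 0 ≤ K ∧ ∀ t z : ℝ, |t| ≤ η → |z - ρ| ≤ η →
      quart (A.eval t) (B.eval t) (C.eval t) z = 0 → |z - P.eval t| ≤ K * |t| ^ (k + 1) := by
  set d := quartD (A.eval 0) (B.eval 0) ρ with hd_def
  have hdpos : 0 < |d| := abs_pos.mpr hd
  -- the continuous function Φ
  let φ : ℝ × ℝ → ℝ := fun p =>
    quartD (A.eval p.1) (B.eval p.1) (P.eval p.1)
      + (p.2 - P.eval p.1) * quartR (A.eval p.1) (P.eval p.1) (p.2 - P.eval p.1)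
  have hφc : Continuous φ := by
    have hA : Continuous fun p : ℝ × ℝ => A.eval p.1 := A.continuous.comp continuous_fst
    have hB : Continuous fun p : ℝ × ℝ => B.eval p.1 := B.continuous.comp continuous_fst
    have hPc : Continuous fun p : ℝ × ℝ => P.eval p.1 := P.continuous.comp continuous_fst
    show Continuous fun p : ℝ × ℝ =>
      quartD (A.eval p.1) (B.eval p.1) (P.eval p.1)
      + (p.2 - P.eval p.1) * quartR (A.eval p.1) (P.eval p.1) (p.2 - P.eval p.1)
    unfold quartD quartR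
    fun_prop
  have hφ0 : φ (0, ρ) = d := by
    simp only [φ, hP0, sub_self, zero_mul, add_zero, hd_def]
  obtain ⟨δ, hδ, hδφ⟩ := (Metric.continuous_iff.mp hφc) (0, ρ) (|d| / 2) (by positivity)
  obtain ⟨G0, hG0, hGb⟩ := exists_bound_on_unit G
  refine ⟨min (δ / 2) 1, by positivity, 2 * G0 / |d|, by positivity, fun t z ht hz hroot => ?_⟩
  have ht1 : |t| ≤ 1 := ht.trans (min_le_right _ _)
  have htδ : |t| < δ := lt_of_le_of_lt (ht.trans (min_le_left _ _)) (by linarith)
  have hzδ : |z - ρ| < δ := lt_of_le_of_lt (hz.trans (min_le_left _ _)) (by linarith)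
  have hdist : dist ((t, z) : ℝ × ℝ) (0, ρ) < δ := by
    rw [Prod.dist_eq]
    simp only [Real.dist_eq, sub_zero]
    exact max_lt htδ hzδ
  have hφ1 := hδφ (t, z) hdist
  rw [hφ0, Real.dist_eq] at hφ1
  -- |φ(t,z)| ≥ |d|/2
  have hφlow : |d| / 2 ≤ |φ (t, z)| := by
    have h1 : |d| - |φ (t, z)| ≤ |φ (t, z) - d| := by
      have := abs_sub_abs_le_abs_sub d (φ (t, z))
      rwa [abs_sub_comm d] at this
    linarith
  -- the identity
  have hval : quart (A.eval t) (B.eval t) (C.eval t) (P.eval t) = t ^ (k + 1) * G.eval t := by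
    rw [← eval_quart, hG]; simp
  have hid : (z - P.eval t) * φ (t, z) = -(t ^ (k + 1) * G.eval t) := by
    have := quart_sub (A.eval t) (B.eval t) (C.eval t) z (P.eval t)
    rw [hroot, hval] at this
    simp only [φ]
    linarith
  have habs : |z - P.eval t| * |φ (t, z)| = |t| ^ (k + 1) * |G.eval t| := by
    rw [← abs_mul, hid, abs_neg, abs_mul, abs_pow]
  have hGt := hGb t ht1
  have hpow : 0 ≤ |t| ^ (k + 1) := by positivity
  have h2 : |z - P.eval t| * (|d| / 2) ≤ |t| ^ (k + 1) * G0 := by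
    calc |z - P.eval t| * (|d| / 2) ≤ |z - P.eval t| * |φ (t, z)| :=
          mul_le_mul_of_nonneg_left hφlow (abs_nonneg _)
      _ = |t| ^ (k + 1) * |G.eval t| := habs
      _ ≤ |t| ^ (k + 1) * G0 := mul_le_mul_of_nonneg_left hGt hpow
  rw [div_mul_eq_mul_div, le_div_iff₀ hdpos]
  nlinarith

/-- Root localisation: for small `t`, every real root of the quartic at `t` is close to a real
root of the quartic at `0`. -/
theorem root_near_root (A B C : ℝ[X]) (ε : ℝ) (hε : 0 < ε) :
    ∃ δ : ℝ, 0 < δ ∧ ∀ t z : ℝ, |t| ≤ δ →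
      quart (A.eval t) (B.eval t) (C.eval t) z = 0 →
      ∃ ρ : ℝ, quart (A.eval 0) (B.eval 0) (C.eval 0) ρ = 0 ∧ |z - ρ| < ε := by
  obtain ⟨MA, hMA0, hMA⟩ := exists_bound_on_unit A
  obtain ⟨MB, hMB0, hMB⟩ := exists_bound_on_unit B
  obtain ⟨MC, hMC0, hMC⟩ := exists_bound_on_unit C
  set B0 : ℝ := 1 + MA + MB + MC with hB0
  have hB01 : 1 ≤ B0 := by linarith
  set ψ0 : ℝ → ℝ := fun z => quart (A.eval 0) (B.eval 0) (C.eval 0) z with hψ0
  have hψc : Continuous ψ0 := by
    show Continuous fun z => quart (A.eval 0) (B.eval 0) (C.eval 0) z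
    unfold quart; fun_prop
  -- the compact set of points far from all roots
  set Kset : Set ℝ := Set.Icc (-B0) B0 ∩ {z | ∀ ρ : ℝ, ψ0 ρ = 0 → ε ≤ |z - ρ|} with hK
  have hKclosed : IsClosed Kset := by
    apply IsClosed.inter isClosed_Icc
    have : {z : ℝ | ∀ ρ : ℝ, ψ0 ρ = 0 → ε ≤ |z - ρ|}
        = ⋂ ρ : ℝ, ⋂ _ : ψ0 ρ = 0, {z : ℝ | ε ≤ |z - ρ|} := by
      ext z; simp
    rw [this]
    apply isClosed_iInter; intro ρ
    apply isClosed_iInter; intro _
    exact isClosed_le continuous_const (by fun_prop)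
  have hKcompact : IsCompact Kset :=
    IsCompact.of_isClosed_subset isCompact_Icc hKclosed Set.inter_subset_left
  -- a root z at time t (|t| ≤ 1) is bounded and has small ψ0
  have hroot_bound : ∀ t z : ℝ, |t| ≤ 1 → quart (A.eval t) (B.eval t) (C.eval t) z = 0 →
      |z| ≤ B0 := by
    intro t z ht hz
    apply quart_root_bound hB01 _ _ _ hz
    · exact (hMA t ht).trans (by linarith)
    · exact (hMB t ht).trans (by linarith)
    · exact (hMC t ht).trans (by linarith)
  have hψsmall : ∀ t z : ℝ, |z| ≤ B0 → quart (A.eval t) (B.eval t) (C.eval t) z = 0 →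
      |ψ0 z| ≤ (|A.eval t - A.eval 0| + |B.eval t - B.eval 0| + |C.eval t - C.eval 0|)
        * B0 ^ 2 := by
    intro t z hzB hz
    have hid : ψ0 z = -((A.eval t - A.eval 0) * z ^ 2 + (B.eval t - B.eval 0) * z
        + (C.eval t - C.eval 0)) := by
      simp only [hψ0]
      unfold quart at hz ⊢
      linarith
    rw [hid, abs_neg]
    have hz2 : |z| ^ 2 ≤ B0 ^ 2 := by
      apply pow_le_pow_left₀ (abs_nonneg _) hzB
    have hz1 : |z| ≤ B0 ^ 2 := by nlinarith [abs_nonneg z]
    have h1' : (1 : ℝ) ≤ B0 ^ 2 := by nlinarith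
    calc |(A.eval t - A.eval 0) * z ^ 2 + (B.eval t - B.eval 0) * z + (C.eval t - C.eval 0)|
        ≤ |(A.eval t - A.eval 0) * z ^ 2| + |(B.eval t - B.eval 0) * z|
            + |C.eval t - C.eval 0| := abs_add_three _ _ _
      _ = |A.eval t - A.eval 0| * |z| ^ 2 + |B.eval t - B.eval 0| * |z|
            + |C.eval t - C.eval 0| := by rw [abs_mul, abs_mul, abs_pow]
      _ ≤ |A.eval t - A.eval 0| * B0 ^ 2 + |B.eval t - B.eval 0| * B0 ^ 2
            + |C.eval t - C.eval 0| * B0 ^ 2 := by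
          have e1 := mul_le_mul_of_nonneg_left hz2 (abs_nonneg (A.eval t - A.eval 0))
          have e2 := mul_le_mul_of_nonneg_left hz1 (abs_nonneg (B.eval t - B.eval 0))
          have e3 := mul_le_mul_of_nonneg_left h1' (abs_nonneg (C.eval t - C.eval 0))
          linarith
      _ = _ := by ring
  by_cases hne : Kset.Nonempty
  · obtain ⟨zs, hzs, hmin⟩ := hKcompact.exists_isMinOn hne
      (f := fun z => |ψ0 z|) (continuous_abs.comp hψc).continuousOn
    have hμ : 0 < |ψ0 zs| := by
      apply abs_pos.mpr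
      intro h0
      have := hzs.2 zs h0
      simp at this
      linarith
    set μ := |ψ0 zs| with hμdef
    -- continuity of the three coefficient polynomials at 0
    have hcont : Continuous fun t : ℝ =>
        (|A.eval t - A.eval 0| + |B.eval t - B.eval 0| + |C.eval t - C.eval 0|) * B0 ^ 2 := by
      have hA := A.continuous
      have hB := B.continuous
      have hC := C.continuous
      fun_prop
    obtain ⟨δ, hδ, hδc⟩ := (Metric.continuous_iff.mp hcont) 0 μ hμ
    refine ⟨min (δ / 2) 1, by positivity, fun t z ht hz => ?_⟩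
    have ht1 : |t| ≤ 1 := ht.trans (min_le_right _ _)
    have htδ : dist t 0 < δ := by
      rw [Real.dist_eq, sub_zero]
      exact lt_of_le_of_lt (ht.trans (min_le_left _ _)) (by linarith)
    have hsm := hδc t htδ
    simp only [sub_self, abs_zero, add_zero, zero_mul, Real.dist_eq, sub_zero] at hsm
    have hzB := hroot_bound t z ht1 hz
    have hψz := hψsmall t z hzB hz
    have hlt : |ψ0 z| < μ := lt_of_le_of_lt hψz (lt_of_le_of_lt (le_abs_self _) hsm)
    by_contra hcon
    rw [not_exists] at hcon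
    have hzK : z ∈ Kset := by
      refine ⟨⟨(abs_le.mp hzB).1, (abs_le.mp hzB).2⟩, fun ρ hρ => ?_⟩
      by_contra hlt'
      rw [not_le] at hlt'
      exact hcon ρ ⟨hρ, hlt'⟩
    have := hmin hzK
    simp only [isMinOn_iff] at hmin
    have h3 := hmin z hzK
    linarith
  · refine ⟨1, one_pos, fun t z ht hz => ?_⟩
    have hzB := hroot_bound t z ht hz
    by_contra hcon
    rw [not_exists] at hcon
    apply hne
    refine ⟨z, ⟨(abs_le.mp hzB).1, (abs_le.mp hzB).2⟩, fun ρ hρ => ?_⟩
    by_contra hlt'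
    rw [not_le] at hlt'
    exact hcon ρ ⟨hρ, hlt'⟩

end Fermat.Agent.S52.H531
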