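/-
S52 / piece B3 (Hilbert irreducibility by hand), helper531.
Part 5: arithmetic preparations (homogenisation, rational roots have denominator dividing 3,
values `T/n` eventually avoid the roots of a nonzero polynomial).
-/
import Fermat.Agent.S52.H531.Local
import Fermat.Agent.S52.H531.Diff

namespace Fermat.Agent.S52.H531

open Polynomial Finset

/-- `n^d * p(T/n)` as an integer: the value at `(T, n)` of the degree-`d` homogenisation. -/
def homEval (p : ℤ[X]) (d : ℕ) (T n : ℤ) : ℤ :=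
  ∑ j ∈ range (d + 1), p.coeff j * T ^ j * n ^ (d - j)

theorem homEval_eq {K : Type*} [Field K] (p : ℤ[X]) (d : ℕ) (hp : p.natDegree ≤ d)
    (T n : ℤ) (hn : (n : K) ≠ 0) :
    ((homEval p d T n : ℤ) : K)
      = (n : K) ^ d * (p.map (Int.castRingHom K)).eval ((T : K) / n) := by
  unfold homEval
  have hdeg : (p.map (Int.castRingHom K)).natDegree < d + 1 :=
    lt_of_le_of_lt (natDegree_map_le) (Nat.lt_succ_of_le hp)
  rw [eval_eq_sum_range' hdeg, Finset.mul_sum]
  push_cast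
  apply Finset.sum_congr rfl
  intro j hj
  have hjd : j ≤ d := Nat.lt_succ_iff.mp (Finset.mem_range.mp hj)
  rw [coeff_map, div_pow]
  have : (n : K) ^ d = (n : K) ^ (d - j) * (n : K) ^ j := by
    rw [← pow_add, Nat.sub_add_cancel hjd]
  rw [this]
  have hnj : (n : K) ^ j ≠ 0 := pow_ne_zero _ hn
  simp only [eq_intCast]
  field_simp

/-- A rational root of `3X⁴ + aX² + bX + c` with integer `a b c` has `3X ∈ ℤ`. -/
theorem three_mul_int_of_root (a b c : ℤ) (X : ℚ)
    (h : quart (a : ℚ) (b : ℚ) (c : ℚ) X = 0) : ∃ N : ℤ, (N : ℚ) = 3 * X := by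
  unfold quart at h
  set p := X.num with hp
  set q := X.den with hq
  have hq0 : (q : ℚ) ≠ 0 := by
    rw [hq]; exact_mod_cast X.den_ne_zero
  have hX : X = (p : ℚ) / (q : ℚ) := by
    rw [hp, hq]; exact (Rat.num_div_den X).symm
  -- clear denominators
  have hZ : 3 * p ^ 4 + a * p ^ 2 * (q : ℤ) ^ 2 + b * p * (q : ℤ) ^ 3 + c * (q : ℤ) ^ 4 = 0 := by
    have : (3 * (p : ℚ) ^ 4 + a * p ^ 2 * (q : ℚ) ^ 2 + b * p * (q : ℚ) ^ 3 + c * (q : ℚ) ^ 4)
        = 0 := by
      rw [hX] at h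
      field_simp at h
      linear_combination h
    exact_mod_cast this
  have hdvd : (q : ℤ) ∣ 3 * p ^ 4 := by
    refine ⟨-(a * p ^ 2 * (q : ℤ) + b * p * (q : ℤ) ^ 2 + c * (q : ℤ) ^ 3), ?_⟩
    linear_combination hZ
  have hcop : IsCoprime (q : ℤ) (p ^ 4) := by
    apply IsCoprime.pow_right
    have := X.reduced
    rw [Int.isCoprime_iff_gcd_eq_one]
    rw [Int.gcd_comm]
    simpa [Int.gcd, hp, hq] using this
  have hq3 : (q : ℤ) ∣ 3 := by
    have := hcop.dvd_of_dvd_mul_right hdvd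
    exact this
  obtain ⟨s, hs⟩ := hq3
  refine ⟨s * p, ?_⟩
  rw [hX]
  have h3 : (3 : ℚ) = (q : ℚ) * (s : ℚ) := by exact_mod_cast hs
  push_cast
  rw [h3]
  field_simp

/-- The values `T/n` eventually avoid the roots of a nonzero polynomial. -/
theorem eventually_not_root (g : ℚ[X]) (hg : g ≠ 0) (T : ℤ) (hT : T ≠ 0) :
    ∃ N : ℕ, ∀ n : ℕ, N ≤ n → g.eval ((T : ℚ) / n) ≠ 0 := by
  set s : Set ℕ := {n : ℕ | 0 < n ∧ g.eval ((T : ℚ) / n) = 0} with hs
  have hfin : s.Finite := by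
    apply Set.Finite.of_finite_image (f := fun n : ℕ => (T : ℚ) / n)
    · apply Set.Finite.subset (Polynomial.finite_setOfPred_isRoot hg)
      rintro x ⟨n, hn, rfl⟩
      exact hn.2
    · intro a ha b hb hab
      simp only at hab
      have hT' : (T : ℚ) ≠ 0 := by exact_mod_cast hT
      have ha0 : (a : ℚ) ≠ 0 := by exact_mod_cast ha.1.ne'
      have hb0 : (b : ℚ) ≠ 0 := by exact_mod_cast hb.1.ne'
      have : (a : ℚ) = b := by
        field_simp at hab
        exact hab.symm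
      exact_mod_cast this
  obtain ⟨N, hN⟩ := hfin.bddAbove
  refine ⟨N + 1, fun n hn h0 => ?_⟩
  have hmem : n ∈ s := ⟨by omega, h0⟩
  have := hN hmem
  omega

end Fermat.Agent.S52.H531
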