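/-
S52 / piece B3 (Hilbert irreducibility by hand), helper531.
Part 6: dictionary between the integral scaled quartic at `n` and the real quartic at `t = T/n`.
-/
import Fermat.Agent.S52.H531.Prep

namespace Fermat.Agent.S52.H531

open Polynomial Finset

/-- `C4` with coefficients in a field `K`. -/
noncomputable abbrev polyK (K : Type*) [Field K] (p : ℤ[X]) : K[X] := p.map (Int.castRingHom K)

theorem polyK_eval_zero (K : Type*) [Field K] (p : ℤ[X]) :
    (polyK K p).eval 0 = ((p.eval 0 : ℤ) : K) := by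
  unfold polyK; rw [eval_zero_map]; simp

theorem eval_cA {R : Type*} [CommRing R] (p : R[X]) (t : R) : (cA p).eval t = cA (p.eval t) := by
  unfold cA; simp

theorem eval_cB {R : Type*} [CommRing R] (p : R[X]) (t : R) : (cB p).eval t = cB (p.eval t) := by
  unfold cB; simp

theorem eval_cC {R : Type*} [CommRing R] (p : R[X]) (t : R) : (cC p).eval t = cC (p.eval t) := by
  unfold cC; simp

theorem map_cA {R S : Type*} [CommRing R] [CommRing S] (f : R →+* S) (x : R) :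
    f (cA x) = cA (f x) := by unfold cA; simp [map_ofNat]

theorem map_cB {R S : Type*} [CommRing R] [CommRing S] (f : R →+* S) (x : R) :
    f (cB x) = cB (f x) := by unfold cB; simp [map_ofNat]

theorem map_cC {R S : Type*} [CommRing R] [CommRing S] (f : R →+* S) (x : R) :
    f (cC x) = cC (f x) := by unfold cC; simp [map_ofNat]

theorem polyK_real_eq_map (p : ℤ[X]) :
    polyK ℝ p = (polyK ℚ p).map (algebraMap ℚ ℝ) := by
  unfold polyK
  rw [Polynomial.map_map]
  congr 1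

/-- A rational root `X` of the integral scaled quartic at `n` gives the real root `X / n^w` of the
quartic at `t = T / n`. -/
theorem root_scaled (w : ℕ) (C4 C6 : ℤ[X]) (h4 : C4.natDegree ≤ 2 * w) (h6 : C6.natDegree ≤ 3 * w)
    (T : ℤ) (n : ℕ) (hn : n ≠ 0) (X : ℚ)
    (hX : psiQ ((homEval C4 (2 * w) T n : ℤ) : ℚ) ((homEval C6 (3 * w) T n : ℤ) : ℚ) X = 0) :
    quart ((cA (polyK ℝ C4)).eval ((T : ℝ) / n)) ((cB (polyK ℝ C6)).eval ((T : ℝ) / n))
      ((cC (polyK ℝ C4)).eval ((T : ℝ) / n)) ((X : ℝ) / (n : ℝ) ^ w) = 0 := by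
  have hnR : ((n : ℤ) : ℝ) ≠ 0 := by exact_mod_cast hn
  have hn' : (n : ℝ) ≠ 0 := by exact_mod_cast hn
  have hnw : (n : ℝ) ^ w ≠ 0 := pow_ne_zero _ hn'
  have h1 : psiQ (((homEval C4 (2 * w) T n : ℤ) : ℚ) : ℝ) (((homEval C6 (3 * w) T n : ℤ) : ℚ) : ℝ)
      (X : ℝ) = 0 := by
    have := congrArg (algebraMap ℚ ℝ) hX
    rw [map_psiQ, map_zero] at this
    simpa using this
  have e4 := homEval_eq (K := ℝ) C4 (2 * w) h4 T n hnR
  have e6 := homEval_eq (K := ℝ) C6 (3 * w) h6 T n hnR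
  simp only [Int.cast_natCast] at e4 e6
  have c4 : (((homEval C4 (2 * w) T n : ℤ) : ℚ) : ℝ)
      = ((n : ℝ) ^ w) ^ 2 * (polyK ℝ C4).eval ((T : ℝ) / n) := by
    rw [← pow_mul, mul_comm w 2]
    rw [← e4]; norm_cast
  have c6 : (((homEval C6 (3 * w) T n : ℤ) : ℚ) : ℝ)
      = ((n : ℝ) ^ w) ^ 3 * (polyK ℝ C6).eval ((T : ℝ) / n) := by
    rw [← pow_mul, mul_comm w 3]
    rw [← e6]; norm_cast
  have cX : (X : ℝ) = (n : ℝ) ^ w * ((X : ℝ) / (n : ℝ) ^ w) := by
    field_simp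
  rw [c4, c6, cX, psiQ_scale] at h1
  have h2 : psiQ ((polyK ℝ C4).eval ((T : ℝ) / n)) ((polyK ℝ C6).eval ((T : ℝ) / n))
      ((X : ℝ) / (n : ℝ) ^ w) = 0 := by
    rcases mul_eq_zero.mp h1 with h | h
    · exact absurd h (pow_ne_zero _ hnw)
    · exact h
  rw [eval_cA, eval_cB, eval_cC]
  exact h2

/-- Common denominator for the values `n^w * P(T/n)`. -/
theorem exists_den (P : ℚ[X]) (w : ℕ) (hP : P.natDegree ≤ w) :
    ∃ D : ℕ, 0 < D ∧ ∀ (T : ℤ) (n : ℕ), n ≠ 0 →
      ∃ I : ℤ, (I : ℚ) = D * (n : ℚ) ^ w * P.eval ((T : ℚ) / n) := by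
  refine ⟨∏ j ∈ range (w + 1), (P.coeff j).den, ?_, ?_⟩
  · apply Finset.prod_pos
    intro j _
    exact (P.coeff j).den_pos
  · intro T n hn
    have hn' : (n : ℚ) ≠ 0 := by exact_mod_cast hn
    -- each D * coeff j is an integer
    have hc : ∀ j ∈ range (w + 1), ∃ c : ℤ,
        (c : ℚ) = ((∏ i ∈ range (w + 1), (P.coeff i).den : ℕ) : ℚ) * P.coeff j := by
      intro j hj
      obtain ⟨e, he⟩ := Finset.dvd_prod_of_mem (fun i => (P.coeff i).den) hj
      refine ⟨(e : ℤ) * (P.coeff j).num, ?_⟩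
      rw [he]
      push_cast
      have := Rat.mul_den_eq_num (P.coeff j)
      rw [← this]
      ring
    choose! c hc using hc
    refine ⟨∑ j ∈ range (w + 1), c j * T ^ j * (n : ℤ) ^ (w - j), ?_⟩
    have hdeg : P.natDegree < w + 1 := Nat.lt_succ_of_le hP
    rw [eval_eq_sum_range' hdeg, Finset.mul_sum]
    push_cast
    apply Finset.sum_congr rfl
    intro j hj
    have hjd : j ≤ w := Nat.lt_succ_iff.mp (Finset.mem_range.mp hj)
    rw [hc j hj, div_pow]
    have : (n : ℚ) ^ w = (n : ℚ) ^ (w - j) * (n : ℚ) ^ j := by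
      rw [← pow_add, Nat.sub_add_cancel hjd]
    rw [this]
    have hnj : (n : ℚ) ^ j ≠ 0 := pow_ne_zero _ hn'
    push_cast
    field_simp

end Fermat.Agent.S52.H531
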