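/-
S52 / piece B3 (Hilbert irreducibility by hand), helper531.
Part 7 (rational branch): near a RATIONAL root of the quartic at `t = 0` there is no rational
root of the scaled integral quartic at `n`, for all large `n`.
-/
import Fermat.Agent.S52.H531.Setup

namespace Fermat.Agent.S52.H531

open Polynomial Finset

theorem no_root_near_rational (w : ℕ) (C4 C6 : ℤ[X])
    (h4 : C4.natDegree ≤ 2 * w) (h6 : C6.natDegree ≤ 3 * w)
    (hΔ : (C4.eval 0) ^ 3 ≠ (C6.eval 0) ^ 2)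
    (hgen : ∀ P : ℚ[X], psiQ (polyK ℚ C4) (polyK ℚ C6) P ≠ 0)
    (T : ℤ) (hT : T ≠ 0) (ρ : ℚ)
    (hρ : psiQ ((C4.eval 0 : ℤ) : ℚ) ((C6.eval 0 : ℤ) : ℚ) ρ = 0) :
    ∃ η : ℝ, 0 < η ∧ ∃ N1 : ℕ, ∀ n : ℕ, N1 ≤ n → ∀ X : ℚ,
      psiQ ((homEval C4 (2 * w) T n : ℤ) : ℚ) ((homEval C6 (3 * w) T n : ℤ) : ℚ) X = 0 →
      ¬ |(X : ℝ) / (n : ℝ) ^ w - (ρ : ℝ)| ≤ η := by
  -- rational coefficient polynomials
  set Aq : ℚ[X] := cA (polyK ℚ C4) with hAq
  set Bq : ℚ[X] := cB (polyK ℚ C6) with hBq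
  set Cq : ℚ[X] := cC (polyK ℚ C4) with hCq
  have hA0 : Aq.eval 0 = cA ((C4.eval 0 : ℤ) : ℚ) := by rw [hAq, eval_cA, polyK_eval_zero]
  have hB0 : Bq.eval 0 = cB ((C6.eval 0 : ℤ) : ℚ) := by rw [hBq, eval_cB, polyK_eval_zero]
  have hC0 : Cq.eval 0 = cC ((C4.eval 0 : ℤ) : ℚ) := by rw [hCq, eval_cC, polyK_eval_zero]
  have hΔq : ((C4.eval 0 : ℤ) : ℚ) ^ 3 ≠ ((C6.eval 0 : ℤ) : ℚ) ^ 2 := by
    intro h; apply hΔ; exact_mod_cast h
  have hroot0 : quart (Aq.eval 0) (Bq.eval 0) (Cq.eval 0) ρ = 0 := by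
    rw [hA0, hB0, hC0]; exact hρ
  have hsimple : quartD (Aq.eval 0) (Bq.eval 0) ρ ≠ 0 := by
    rw [hA0, hB0]; exact psiQ_deriv_ne_zero hΔq hρ
  obtain ⟨P, hP0, hPdeg, Gq, hGq⟩ := exists_newton_trunc Aq Bq Cq ρ hroot0 hsimple w
  have hg : quart Aq Bq Cq P ≠ 0 := hgen P
  obtain ⟨Ng, hNg⟩ := eventually_not_root _ hg T hT
  obtain ⟨D, hD, hDint⟩ := exists_den P w hPdeg
  -- real versions
  set φ : ℚ[X] →+* ℝ[X] := Polynomial.mapRingHom (algebraMap ℚ ℝ) with hφ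
  have hφA : φ Aq = cA (polyK ℝ C4) := by
    rw [hAq, map_cA, polyK_real_eq_map]; rfl
  have hφB : φ Bq = cB (polyK ℝ C6) := by
    rw [hBq, map_cB, polyK_real_eq_map]; rfl
  have hφC : φ Cq = cC (polyK ℝ C4) := by
    rw [hCq, map_cC, polyK_real_eq_map]; rfl
  have hGR : quart (cA (polyK ℝ C4)) (cB (polyK ℝ C6)) (cC (polyK ℝ C4)) (φ P)
      = X ^ (w + 1) * φ Gq := by
    rw [← hφA, ← hφB, ← hφC, ← map_quart, hGq, map_mul, map_pow]
    congr 2
    simp [hφ]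
  have hPR0 : (φ P).eval 0 = (ρ : ℝ) := by
    show (P.map (algebraMap ℚ ℝ)).eval 0 = (ρ : ℝ)
    rw [eval_zero_map, hP0]; rfl
  have hsimpleR : quartD ((cA (polyK ℝ C4)).eval 0) ((cB (polyK ℝ C6)).eval 0) (ρ : ℝ) ≠ 0 := by
    rw [← hφA, ← hφB]
    have e1 : (φ Aq).eval 0 = algebraMap ℚ ℝ (Aq.eval 0) := by
      show (Aq.map (algebraMap ℚ ℝ)).eval 0 = _
      rw [eval_zero_map]
    have e2 : (φ Bq).eval 0 = algebraMap ℚ ℝ (Bq.eval 0) := by
      show (Bq.map (algebraMap ℚ ℝ)).eval 0 = _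
      rw [eval_zero_map]
    rw [e1, e2]
    have : quartD (algebraMap ℚ ℝ (Aq.eval 0)) (algebraMap ℚ ℝ (Bq.eval 0)) (ρ : ℝ)
        = algebraMap ℚ ℝ (quartD (Aq.eval 0) (Bq.eval 0) ρ) := by
      rw [map_quartD]; rfl
    rw [this]
    intro h0
    apply hsimple
    exact (algebraMap ℚ ℝ).injective (by rw [h0, map_zero])
  obtain ⟨η, hη, K, hK, hest⟩ := root_close_to_newton (cA (polyK ℝ C4)) (cB (polyK ℝ C6))
    (cC (polyK ℝ C4)) (φ P) (φ Gq) w (ρ : ℝ) hPR0 hGR hsimpleR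
  refine ⟨η, hη, ?_⟩
  -- choose the threshold
  set Tabs : ℝ := |(T : ℝ)| with hTabs
  have hTpos : 0 < Tabs := abs_pos.mpr (by exact_mod_cast hT)
  obtain ⟨N2, hN2⟩ := exists_nat_gt (Tabs / η)
  obtain ⟨N3, hN3⟩ := exists_nat_gt (3 * D * K * Tabs ^ (w + 1))
  refine ⟨max (max Ng 1) (max N2 N3), fun n hn X hX hnear => ?_⟩
  have hnNg : Ng ≤ n := le_trans (le_trans (le_max_left _ _) (le_max_left _ _)) hn
  have hn1 : 1 ≤ n := le_trans (le_trans (le_max_right _ _) (le_max_left _ _)) hn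
  have hnN2 : N2 ≤ n := le_trans (le_trans (le_max_left _ _) (le_max_right _ _)) hn
  have hnN3 : N3 ≤ n := le_trans (le_trans (le_max_right _ _) (le_max_right _ _)) hn
  have hn0 : n ≠ 0 := by omega
  have hnR : (0 : ℝ) < n := by exact_mod_cast hn1
  have hnw : (0 : ℝ) < (n : ℝ) ^ w := by positivity
  set t : ℝ := (T : ℝ) / n with ht
  set z : ℝ := (X : ℝ) / (n : ℝ) ^ w with hz
  have htabs : |t| = Tabs / n := by
    rw [ht, abs_div, abs_of_pos hnR]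
  have htη : |t| ≤ η := by
    rw [htabs, div_le_iff₀ hnR]
    have : Tabs / η < n := lt_of_lt_of_le hN2 (by exact_mod_cast hnN2)
    rw [div_lt_iff₀ hη] at this
    linarith
  have hrootR := root_scaled w C4 C6 h4 h6 T n hn0 X hX
  have hclose := hest t z htη hnear hrootR
  -- the integers
  obtain ⟨N, hN⟩ := three_mul_int_of_root (-162 * homEval C4 (2 * w) T n)
    (-648 * homEval C6 (3 * w) T n) (-729 * (homEval C4 (2 * w) T n) ^ 2) X (by
      have := hX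
      unfold psiQ cA cB cC at this
      push_cast
      exact this)
  obtain ⟨I, hI⟩ := hDint T n hn0
  -- the small integer
  have hPt : (φ P).eval t = ((P.eval ((T : ℚ) / n) : ℚ) : ℝ) := by
    show (P.map (algebraMap ℚ ℝ)).eval t = _
    have : t = algebraMap ℚ ℝ ((T : ℚ) / n) := by
      rw [ht]; simp
    rw [this, eval_map_apply]; rfl
  have hdiff : (((D : ℤ) * N - 3 * I : ℤ) : ℝ) = 3 * D * (n : ℝ) ^ w * (z - (φ P).eval t) := by
    have hNR : (N : ℝ) = 3 * (X : ℝ) := by exact_mod_cast congrArg (fun q : ℚ => (q : ℝ)) hN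
    have hIR : (I : ℝ) = D * (n : ℝ) ^ w * ((P.eval ((T : ℚ) / n) : ℚ) : ℝ) := by
      exact_mod_cast congrArg (fun q : ℚ => (q : ℝ)) hI
    rw [hPt, hz]
    push_cast
    rw [hNR, hIR]
    field_simp
  have hsmall : |(((D : ℤ) * N - 3 * I : ℤ) : ℝ)| < 1 := by
    rw [hdiff, abs_mul, abs_mul, abs_mul]
    have hD' : (0 : ℝ) < D := by exact_mod_cast hD
    rw [abs_of_pos (by norm_num : (0 : ℝ) < 3), abs_of_pos hD', abs_of_pos hnw]
    have h1 : |z - (φ P).eval t| ≤ K * (Tabs / n) ^ (w + 1) := by rw [← htabs]; exact hclose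
    have h2 : (n : ℝ) ^ w * (Tabs / n) ^ (w + 1) = Tabs ^ (w + 1) / n := by
      rw [div_pow, pow_succ (n : ℝ) w]
      field_simp
    have h3 : 3 * D * K * Tabs ^ (w + 1) < n := lt_of_lt_of_le hN3 (by exact_mod_cast hnN3)
    calc 3 * (D : ℝ) * (n : ℝ) ^ w * |z - (φ P).eval t|
        ≤ 3 * (D : ℝ) * (n : ℝ) ^ w * (K * (Tabs / n) ^ (w + 1)) := by
          apply mul_le_mul_of_nonneg_left h1; positivity
      _ = 3 * D * K * ((n : ℝ) ^ w * (Tabs / n) ^ (w + 1)) := by ring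
      _ = 3 * D * K * Tabs ^ (w + 1) / n := by rw [h2]; ring
      _ < 1 := by rw [div_lt_one hnR]; exact h3
  have hzero : ((D : ℤ) * N - 3 * I : ℤ) = 0 := by
    have : |((D : ℤ) * N - 3 * I : ℤ)| < 1 := by exact_mod_cast hsmall
    exact Int.abs_lt_one_iff.mp this
  have hzP : z = (φ P).eval t := by
    rw [hzero] at hdiff
    have hD' : (D : ℝ) ≠ 0 := by exact_mod_cast hD.ne'
    have : 3 * (D : ℝ) * (n : ℝ) ^ w ≠ 0 := by positivity
    have h0 : 3 * (D : ℝ) * (n : ℝ) ^ w * (z - (φ P).eval t) = 0 := by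
      rw [← hdiff]; simp
    rcases mul_eq_zero.mp h0 with h | h
    · exact absurd h this
    · linarith
  -- so T/n is a root of g
  have hgt : (quart (cA (polyK ℝ C4)) (cB (polyK ℝ C6)) (cC (polyK ℝ C4)) (φ P)).eval t = 0 := by
    rw [eval_quart, ← hzP]; exact hrootR
  have hgq : (quart Aq Bq Cq P).eval ((T : ℚ) / n) = 0 := by
    have e : (φ (quart Aq Bq Cq P)).eval t = 0 := by
      rw [map_quart, hφA, hφB, hφC]; exact hgt
    have : t = algebraMap ℚ ℝ ((T : ℚ) / n) := by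
      rw [ht]; simp
    rw [this] at e
    have e' : ((quart Aq Bq Cq P).map (algebraMap ℚ ℝ)).eval (algebraMap ℚ ℝ ((T : ℚ) / n)) = 0 := e
    rw [eval_map_apply] at e'
    exact (algebraMap ℚ ℝ).injective (by rw [e', map_zero])
  exact hNg n hnNg hgq

end Fermat.Agent.S52.H531
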