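/-
S52 / piece B3 (Hilbert irreducibility by hand), helper531.
Part 8 (the other branch): if for ALL large `k` the scaled integral quartic at `n = r + m k` has a
rational root close to a real root `x1` of the quartic at `t = 0`, then `x1` is rational.
-/
import Fermat.Agent.S52.H531.Setup

namespace Fermat.Agent.S52.H531

open Polynomial Finset Filter Topology
open scoped Nat

/-- The polynomial `k ↦ 3 (r + m k)^w P(T / (r + m k))`. -/
noncomputable def Qpoly (P : ℝ[X]) (w : ℕ) (T : ℤ) (r m : ℕ) : ℝ[X] :=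
  ∑ j ∈ range (w + 1),
    Polynomial.C (3 * P.coeff j * (T : ℝ) ^ j) * (Polynomial.C (m : ℝ) * X + Polynomial.C (r : ℝ)) ^ (w - j)

theorem Qpoly_natDegree_le (P : ℝ[X]) (w : ℕ) (T : ℤ) (r m : ℕ) :
    (Qpoly P w T r m).natDegree ≤ w := by
  unfold Qpoly
  apply natDegree_sum_le_of_forall_le
  intro j _
  apply (natDegree_C_mul_le _ _).trans
  apply (natDegree_pow_le).trans
  calc (w - j) * (Polynomial.C (m : ℝ) * X + Polynomial.C (r : ℝ)).natDegree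
      ≤ (w - j) * 1 := Nat.mul_le_mul_left _ (natDegree_linear_le)
    _ ≤ w := by omega

theorem Qpoly_coeff (P : ℝ[X]) (w : ℕ) (T : ℤ) (r m : ℕ) :
    (Qpoly P w T r m).coeff w = 3 * P.coeff 0 * (m : ℝ) ^ w := by
  unfold Qpoly
  rw [finsetSum_coeff, Finset.sum_range_succ']
  have hzero : ∀ j ∈ range w, (Polynomial.C (3 * P.coeff (j + 1) * (T : ℝ) ^ (j + 1))
      * (Polynomial.C (m : ℝ) * X + Polynomial.C (r : ℝ)) ^ (w - (j + 1))).coeff w = 0 := by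
    intro j hj
    have hjw : j < w := Finset.mem_range.mp hj
    apply coeff_eq_zero_of_natDegree_lt
    apply lt_of_le_of_lt (natDegree_C_mul_le _ _)
    apply lt_of_le_of_lt (natDegree_pow_le)
    calc (w - (j + 1)) * (Polynomial.C (m : ℝ) * X + Polynomial.C (r : ℝ)).natDegree
        ≤ (w - (j + 1)) * 1 := Nat.mul_le_mul_left _ (natDegree_linear_le)
      _ < w := by omega
  rw [Finset.sum_eq_zero hzero, zero_add, coeff_C_mul]
  have h1 := coeff_pow_of_natDegree_le (p := Polynomial.C (m : ℝ) * X + Polynomial.C (r : ℝ))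
    (n := 1) (natDegree_linear_le) (m := w)
  rw [mul_one] at h1
  rw [Nat.sub_zero, h1]
  simp

theorem Qpoly_eval (P : ℝ[X]) (w : ℕ) (hP : P.natDegree ≤ w) (T : ℤ) (r m k : ℕ)
    (hn : r + m * k ≠ 0) :
    (Qpoly P w T r m).eval (k : ℝ)
      = 3 * ((r + m * k : ℕ) : ℝ) ^ w * P.eval ((T : ℝ) / ((r + m * k : ℕ) : ℝ)) := by
  have hn' : ((r + m * k : ℕ) : ℝ) ≠ 0 := by exact_mod_cast hn
  have hdeg : P.natDegree < w + 1 := Nat.lt_succ_of_le hP
  unfold Qpoly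
  rw [eval_finsetSum, eval_eq_sum_range' hdeg, Finset.mul_sum]
  apply Finset.sum_congr rfl
  intro j hj
  have hjd : j ≤ w := Nat.lt_succ_iff.mp (Finset.mem_range.mp hj)
  have hlin : (m : ℝ) * (k : ℝ) + (r : ℝ) = ((r + m * k : ℕ) : ℝ) := by push_cast; ring
  simp only [eval_mul, eval_C, eval_pow, eval_add, eval_X]
  rw [hlin, div_pow]
  have : ((r + m * k : ℕ) : ℝ) ^ w
      = ((r + m * k : ℕ) : ℝ) ^ (w - j) * ((r + m * k : ℕ) : ℝ) ^ j := by
    rw [← pow_add, Nat.sub_add_cancel hjd]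
  rw [this]
  have hnj : ((r + m * k : ℕ) : ℝ) ^ j ≠ 0 := pow_ne_zero _ hn'
  field_simp

theorem rational_of_branch (w : ℕ) (C4 C6 : ℤ[X])
    (h4 : C4.natDegree ≤ 2 * w) (h6 : C6.natDegree ≤ 3 * w)
    (hΔ : (C4.eval 0) ^ 3 ≠ (C6.eval 0) ^ 2)
    (T : ℤ) (m : ℕ) (hm : 0 < m) (r : ℕ) (x1 : ℝ)
    (hx1 : psiQ ((C4.eval 0 : ℤ) : ℝ) ((C6.eval 0 : ℤ) : ℝ) x1 = 0) :
    ∃ η : ℝ, 0 < η ∧ ∀ (Xs : ℕ → ℚ) (K2 : ℕ),
      (∀ k, K2 ≤ k →
        psiQ ((homEval C4 (2 * w) T ((r + m * k : ℕ) : ℤ) : ℤ) : ℚ)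
          ((homEval C6 (3 * w) T ((r + m * k : ℕ) : ℤ) : ℤ) : ℚ) (Xs k) = 0 ∧
        |(Xs k : ℝ) / ((r + m * k : ℕ) : ℝ) ^ w - x1| ≤ η) →
      ∃ q : ℚ, (q : ℝ) = x1 := by
  set A : ℝ[X] := cA (polyK ℝ C4) with hA
  set B : ℝ[X] := cB (polyK ℝ C6) with hB
  set C : ℝ[X] := cC (polyK ℝ C4) with hC
  have hA0 : A.eval 0 = cA ((C4.eval 0 : ℤ) : ℝ) := by rw [hA, eval_cA, polyK_eval_zero]
  have hB0 : B.eval 0 = cB ((C6.eval 0 : ℤ) : ℝ) := by rw [hB, eval_cB, polyK_eval_zero]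
  have hC0 : C.eval 0 = cC ((C4.eval 0 : ℤ) : ℝ) := by rw [hC, eval_cC, polyK_eval_zero]
  have hΔR : ((C4.eval 0 : ℤ) : ℝ) ^ 3 ≠ ((C6.eval 0 : ℤ) : ℝ) ^ 2 := by
    intro h; apply hΔ; exact_mod_cast h
  have hroot0 : quart (A.eval 0) (B.eval 0) (C.eval 0) x1 = 0 := by
    rw [hA0, hB0, hC0]; exact hx1
  have hsimple : quartD (A.eval 0) (B.eval 0) x1 ≠ 0 := by
    rw [hA0, hB0]; exact psiQ_deriv_ne_zero hΔR hx1
  obtain ⟨P, hP0, hPdeg, G, hG⟩ := exists_newton_trunc A B C x1 hroot0 hsimple w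
  obtain ⟨η, hη, K, hK, hest⟩ := root_close_to_newton A B C P G w x1 hP0 hG hsimple
  refine ⟨η, hη, fun Xs K2 hXs => ?_⟩
  set Tabs : ℝ := |(T : ℝ)| with hTabs
  have hTnn : 0 ≤ Tabs := abs_nonneg _
  -- the integers 3 * Xs k
  have hint : ∀ k, ∃ N : ℤ, K2 ≤ k → (N : ℚ) = 3 * Xs k := by
    intro k
    by_cases hk : K2 ≤ k
    · obtain ⟨N, hN⟩ := three_mul_int_of_root (-162 * homEval C4 (2 * w) T ((r + m * k : ℕ) : ℤ))
        (-648 * homEval C6 (3 * w) T ((r + m * k : ℕ) : ℤ))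
        (-729 * (homEval C4 (2 * w) T ((r + m * k : ℕ) : ℤ)) ^ 2) (Xs k) (by
          have := (hXs k hk).1
          unfold psiQ cA cB cC at this
          push_cast
          exact this)
      exact ⟨N, fun _ => hN⟩
    · exact ⟨0, fun h => absurd h hk⟩
  choose u hu using hint
  -- the limit
  have hlim : Tendsto (fun k : ℕ => (u k : ℝ) - (Qpoly P w T r m).eval (k : ℝ)) atTop (𝓝 0) := by
    rw [Metric.tendsto_atTop]
    intro ε hε
    obtain ⟨N2, hN2⟩ := exists_nat_gt (Tabs / η)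
    obtain ⟨N3, hN3⟩ := exists_nat_gt (3 * K * Tabs ^ (w + 1) / ε)
    refine ⟨max (max K2 1) (max N2 N3), fun k hk => ?_⟩
    have hkK2 : K2 ≤ k := le_trans (le_trans (le_max_left _ _) (le_max_left _ _)) hk
    have hk1 : 1 ≤ k := le_trans (le_trans (le_max_right _ _) (le_max_left _ _)) hk
    have hkN2 : N2 ≤ k := le_trans (le_trans (le_max_left _ _) (le_max_right _ _)) hk
    have hkN3 : N3 ≤ k := le_trans (le_trans (le_max_right _ _) (le_max_right _ _)) hk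
    have hkn : k ≤ r + m * k := by nlinarith
    have hn0 : r + m * k ≠ 0 := by omega
    set n : ℕ := r + m * k with hn
    have hnR : (0 : ℝ) < n := by exact_mod_cast Nat.pos_of_ne_zero hn0
    have hknR : (k : ℝ) ≤ n := by exact_mod_cast hkn
    have hkR : (0 : ℝ) < k := by exact_mod_cast hk1
    have hnw : (0 : ℝ) < (n : ℝ) ^ w := by positivity
    set t : ℝ := (T : ℝ) / n with ht
    set z : ℝ := (Xs k : ℝ) / (n : ℝ) ^ w with hz
    have htabs : |t| = Tabs / n := by rw [ht, abs_div, abs_of_pos hnR]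
    have htη : |t| ≤ η := by
      rw [htabs, div_le_iff₀ hnR]
      have h1 : Tabs / η < k := lt_of_lt_of_le hN2 (by exact_mod_cast hkN2)
      rw [div_lt_iff₀ hη] at h1
      nlinarith
    obtain ⟨hroot, hnear⟩ := hXs k hkK2
    have hrootR := root_scaled w C4 C6 h4 h6 T n hn0 (Xs k) (by exact_mod_cast hroot)
    have hclose := hest t z htη hnear hrootR
    have huR : (u k : ℝ) = 3 * (Xs k : ℝ) := by
      exact_mod_cast congrArg (fun q : ℚ => (q : ℝ)) (hu k hkK2)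
    have hQ : (Qpoly P w T r m).eval (k : ℝ) = 3 * (n : ℝ) ^ w * P.eval ((T : ℝ) / (n : ℝ)) :=
      Qpoly_eval P w hPdeg T r m k hn0
    rw [Real.dist_eq, sub_zero, hQ, huR]
    have hrew : 3 * (Xs k : ℝ) - 3 * (n : ℝ) ^ w * P.eval ((T : ℝ) / (n : ℝ))
        = 3 * (n : ℝ) ^ w * (z - P.eval t) := by
      rw [hz, ht]
      field_simp
    rw [hrew, abs_mul, abs_mul, abs_of_pos (by norm_num : (0 : ℝ) < 3), abs_of_pos hnw]
    have h1 : |z - P.eval t| ≤ K * (Tabs / n) ^ (w + 1) := by rw [← htabs]; exact hclose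
    have h2 : (n : ℝ) ^ w * (Tabs / n) ^ (w + 1) = Tabs ^ (w + 1) / n := by
      rw [div_pow, pow_succ (n : ℝ) w]
      field_simp
    have h3 : 3 * K * Tabs ^ (w + 1) / ε < k := lt_of_lt_of_le hN3 (by exact_mod_cast hkN3)
    have h4' : 3 * K * Tabs ^ (w + 1) < ε * n := by
      rw [div_lt_iff₀ hε] at h3
      nlinarith
    calc 3 * (n : ℝ) ^ w * |z - P.eval t|
        ≤ 3 * (n : ℝ) ^ w * (K * (Tabs / n) ^ (w + 1)) := by
          apply mul_le_mul_of_nonneg_left h1; positivity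
      _ = 3 * K * ((n : ℝ) ^ w * (Tabs / n) ^ (w + 1)) := by ring
      _ = 3 * K * Tabs ^ (w + 1) / n := by rw [h2]; ring
      _ < ε := by rw [div_lt_iff₀ hnR]; exact h4'
  obtain ⟨N, hN⟩ := factorial_mul_coeff_int w (Qpoly P w T r m) (Qpoly_natDegree_le P w T r m)
    u hlim
  rw [Qpoly_coeff, coeff_zero_eq_eval_zero, hP0] at hN
  refine ⟨(N : ℚ) / ((w ! : ℚ) * 3 * (m : ℚ) ^ w), ?_⟩
  have hm' : (m : ℝ) ≠ 0 := by exact_mod_cast hm.ne'
  have hw' : (w ! : ℝ) ≠ 0 := by exact_mod_cast (Nat.factorial_ne_zero w)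
  push_cast
  rw [hN]
  field_simp

end Fermat.Agent.S52.H531
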