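/-
S52 / piece B3 (Hilbert irreducibility by hand), helper531.  MAIN THEOREM.

Setting: `C4 C6 : ℤ[X]` of degrees `≤ 2w`, `≤ 3w` (for the Rubin–Silverberg family `w = 10`),
`ψ_t(x) = 3x⁴ - 162 C4(t) x² - 648 C6(t) x - 729 C4(t)²`
(= the 3-division polynomial of `y² = x³ - 27 C4(t) x - 54 C6(t)`).
Hypotheses: `ψ_0` has a rational root, `C4(0)³ ≠ C6(0)²`, and `ψ_t` has no root in `ℚ[t]`.
Conclusion: in every arithmetic progression `n = r + m k` there are arbitrarily large `k` such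
that the integral quartic `3X⁴ - 162 c4 X² - 648 c6 X - 729 c4²`,
`c4 = n^(2w) C4(T/n)`, `c6 = n^(3w) C6(T/n)`, has NO rational root.
-/
import Fermat.Agent.S52.H531.Step1
import Fermat.Agent.S52.H531.Step2

namespace Fermat.Agent.S52.H531

open Polynomial Finset

theorem exists_rootless (w : ℕ) (C4 C6 : ℤ[X])
    (h4 : C4.natDegree ≤ 2 * w) (h6 : C6.natDegree ≤ 3 * w)
    (hΔ : (C4.eval 0) ^ 3 ≠ (C6.eval 0) ^ 2)
    (x0 : ℚ) (hx0 : psiQ ((C4.eval 0 : ℤ) : ℚ) ((C6.eval 0 : ℤ) : ℚ) x0 = 0)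
    (hgen : ∀ P : ℚ[X], psiQ (polyK ℚ C4) (polyK ℚ C6) P ≠ 0)
    (T : ℤ) (hT : T ≠ 0) (m : ℕ) (hm : 0 < m) (r : ℕ) (K0 : ℕ) :
    ∃ k : ℕ, K0 ≤ k ∧ ∀ X : ℚ,
      psiQ ((homEval C4 (2 * w) T ((r + m * k : ℕ) : ℤ) : ℤ) : ℚ)
        ((homEval C6 (3 * w) T ((r + m * k : ℕ) : ℤ) : ℤ) : ℚ) X ≠ 0 := by
  by_contra hcon
  have hall : ∀ k : ℕ, ∃ X : ℚ, K0 ≤ k →
      psiQ ((homEval C4 (2 * w) T ((r + m * k : ℕ) : ℤ) : ℤ) : ℚ)
        ((homEval C6 (3 * w) T ((r + m * k : ℕ) : ℤ) : ℤ) : ℚ) X = 0 := by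
    intro k
    by_cases hk : K0 ≤ k
    · by_contra h
      apply hcon
      refine ⟨k, hk, fun X hX => h ⟨X, fun _ => hX⟩⟩
    · exact ⟨0, fun h => absurd h hk⟩
  choose Xs hXs using hall
  -- real data
  set A : ℝ[X] := cA (polyK ℝ C4) with hA
  set B : ℝ[X] := cB (polyK ℝ C6) with hB
  set C : ℝ[X] := cC (polyK ℝ C4) with hC
  have hA0 : A.eval 0 = cA ((C4.eval 0 : ℤ) : ℝ) := by rw [hA, eval_cA, polyK_eval_zero]
  have hB0 : B.eval 0 = cB ((C6.eval 0 : ℤ) : ℝ) := by rw [hB, eval_cB, polyK_eval_zero]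
  have hC0 : C.eval 0 = cC ((C4.eval 0 : ℤ) : ℝ) := by rw [hC, eval_cC, polyK_eval_zero]
  have hΔR : ((C4.eval 0 : ℤ) : ℝ) ^ 3 ≠ ((C6.eval 0 : ℤ) : ℝ) ^ 2 := by
    intro h; apply hΔ; exact_mod_cast h
  have hx0R : psiQ ((C4.eval 0 : ℤ) : ℝ) ((C6.eval 0 : ℤ) : ℝ) (x0 : ℝ) = 0 := by
    have := congrArg (algebraMap ℚ ℝ) hx0
    rw [map_psiQ, map_zero] at this
    simpa using this
  obtain ⟨x1, hx1, hpair⟩ := psiQ_roots_subset_pair hΔR hx0R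
  obtain ⟨η0, hη0, N0, hstep0⟩ := no_root_near_rational w C4 C6 h4 h6 hΔ hgen T hT x0 hx0
  obtain ⟨η1, hη1, hstep2⟩ := rational_of_branch w C4 C6 h4 h6 hΔ T m hm r x1 hx1
  set Tabs : ℝ := |(T : ℝ)| with hTabs
  -- common tool: for large k the root z_k is close to x0 or x1
  have hloc : ∀ ε : ℝ, 0 < ε → ∃ K1 : ℕ, ∀ k, K1 ≤ k → K0 ≤ k ∧ 1 ≤ k ∧
      (|(Xs k : ℝ) / ((r + m * k : ℕ) : ℝ) ^ w - (x0 : ℝ)| < ε ∨
        |(Xs k : ℝ) / ((r + m * k : ℕ) : ℝ) ^ w - x1| < ε) := by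
    intro ε hε
    obtain ⟨δ, hδ, hnear⟩ := root_near_root A B C ε hε
    obtain ⟨N2, hN2⟩ := exists_nat_gt (Tabs / δ)
    refine ⟨max (max K0 1) N2, fun k hk => ?_⟩
    have hkK0 : K0 ≤ k := le_trans (le_trans (le_max_left _ _) (le_max_left _ _)) hk
    have hk1 : 1 ≤ k := le_trans (le_trans (le_max_right _ _) (le_max_left _ _)) hk
    have hkN2 : N2 ≤ k := le_trans (le_max_right _ _) hk
    refine ⟨hkK0, hk1, ?_⟩
    have hkn : k ≤ r + m * k := by nlinarith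
    have hn0 : r + m * k ≠ 0 := by omega
    have hnR : (0 : ℝ) < ((r + m * k : ℕ) : ℝ) := by exact_mod_cast Nat.pos_of_ne_zero hn0
    have hknR : (k : ℝ) ≤ ((r + m * k : ℕ) : ℝ) := by exact_mod_cast hkn
    have htδ : |(T : ℝ) / ((r + m * k : ℕ) : ℝ)| ≤ δ := by
      rw [abs_div, abs_of_pos hnR, div_le_iff₀ hnR]
      have h1 : Tabs / δ < k := lt_of_lt_of_le hN2 (by exact_mod_cast hkN2)
      rw [div_lt_iff₀ hδ] at h1
      nlinarith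
    have hrootR := root_scaled w C4 C6 h4 h6 T (r + m * k) hn0 (Xs k) (hXs k hkK0)
    obtain ⟨ρ, hρ, hρε⟩ := hnear _ _ htδ hrootR
    rw [hA0, hB0, hC0] at hρ
    rcases hpair ρ hρ with h | h
    · left; rw [← h]; exact hρε
    · right; rw [← h]; exact hρε
  by_cases hrat : ∃ q : ℚ, (q : ℝ) = x1
  · -- both branches rational
    obtain ⟨q, hq⟩ := hrat
    have hqroot : psiQ ((C4.eval 0 : ℤ) : ℚ) ((C6.eval 0 : ℤ) : ℚ) q = 0 := by
      have h1 : algebraMap ℚ ℝ (psiQ ((C4.eval 0 : ℤ) : ℚ) ((C6.eval 0 : ℤ) : ℚ) q) = 0 := by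
        rw [map_psiQ]
        have : (algebraMap ℚ ℝ) q = x1 := hq
        rw [this]
        simpa using hx1
      exact (algebraMap ℚ ℝ).injective (by rw [h1, map_zero])
    obtain ⟨ηq, hηq, Nq, hstepq⟩ := no_root_near_rational w C4 C6 h4 h6 hΔ hgen T hT q hqroot
    obtain ⟨K1, hK1⟩ := hloc (min η0 ηq) (lt_min hη0 hηq)
    set k := max K1 (max N0 Nq) with hk
    obtain ⟨hkK0, hk1, hor⟩ := hK1 k (le_max_left _ _)
    have hkn : k ≤ r + m * k := by nlinarith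
    have hN0 : N0 ≤ r + m * k :=
      le_trans (le_trans (le_max_left _ _) (le_max_right _ _)) hkn
    have hNq : Nq ≤ r + m * k :=
      le_trans (le_trans (le_max_right _ _) (le_max_right _ _)) hkn
    rcases hor with h | h
    · exact hstep0 (r + m * k) hN0 (Xs k) (hXs k hkK0)
        (le_of_lt (lt_of_lt_of_le h (min_le_left _ _)))
    · refine hstepq (r + m * k) hNq (Xs k) (hXs k hkK0) ?_
      rw [hq]
      exact le_of_lt (lt_of_lt_of_le h (min_le_right _ _))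
  · -- x1 irrational: all large k follow the branch of x1
    apply hrat
    obtain ⟨K1, hK1⟩ := hloc (min η0 η1) (lt_min hη0 hη1)
    apply hstep2 Xs (max K1 N0)
    intro k hk
    have hkK1 : K1 ≤ k := le_trans (le_max_left _ _) hk
    have hkN0 : N0 ≤ k := le_trans (le_max_right _ _) hk
    obtain ⟨hkK0, hk1, hor⟩ := hK1 k hkK1
    have hkn : k ≤ r + m * k := by nlinarith
    refine ⟨hXs k hkK0, ?_⟩
    rcases hor with h | h
    · exfalso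
      exact hstep0 (r + m * k) (le_trans hkN0 hkn) (Xs k) (hXs k hkK0)
        (le_of_lt (lt_of_lt_of_le h (min_le_left _ _)))
    · exact le_of_lt (lt_of_lt_of_le h (min_le_right _ _))

/-- The same statement with `psiQ` unfolded. -/
theorem exists_rootless' (w : ℕ) (C4 C6 : ℤ[X])
    (h4 : C4.natDegree ≤ 2 * w) (h6 : C6.natDegree ≤ 3 * w)
    (hΔ : (C4.eval 0) ^ 3 ≠ (C6.eval 0) ^ 2)
    (x0 : ℚ) (hx0 : 3 * x0 ^ 4 - 162 * ((C4.eval 0 : ℤ) : ℚ) * x0 ^ 2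
      - 648 * ((C6.eval 0 : ℤ) : ℚ) * x0 - 729 * ((C4.eval 0 : ℤ) : ℚ) ^ 2 = 0)
    (hgen : ∀ P : ℚ[X], 3 * P ^ 4 - 162 * C4.map (Int.castRingHom ℚ) * P ^ 2
      - 648 * C6.map (Int.castRingHom ℚ) * P - 729 * (C4.map (Int.castRingHom ℚ)) ^ 2 ≠ 0)
    (T : ℤ) (hT : T ≠ 0) (m : ℕ) (hm : 0 < m) (r : ℕ) (K0 : ℕ) :
    ∃ k : ℕ, K0 ≤ k ∧ ∀ X : ℚ,
      3 * X ^ 4 - 162 * ((homEval C4 (2 * w) T ((r + m * k : ℕ) : ℤ) : ℤ) : ℚ) * X ^ 2
        - 648 * ((homEval C6 (3 * w) T ((r + m * k : ℕ) : ℤ) : ℤ) : ℚ) * X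
        - 729 * ((homEval C4 (2 * w) T ((r + m * k : ℕ) : ℤ) : ℤ) : ℚ) ^ 2 ≠ 0 := by
  obtain ⟨k, hk, hroot⟩ := exists_rootless w C4 C6 h4 h6 hΔ x0 (by rw [psiQ_eq]; exact hx0)
    (fun P => by rw [psiQ_eq]; exact hgen P) T hT m hm r K0
  refine ⟨k, hk, fun X => ?_⟩
  have := hroot X
  rw [psiQ_eq] at this
  exact this

end Fermat.Agent.S52.H531
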