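/-
S52 / piece B3, helper531.  Bridge to the Prelude: if the quartic
`3X⁴ - 162 c₄ X² - 648 c₆ X - 729 c₄²` attached to an integral Weierstrass model `W` has no
rational root, then the mod-3 representation of `W` is irreducible
(via the landed S51 lemma `Fermat.Agent.S51.H780.three_main`).
-/
import Fermat.Agent.S52.H531.Main
import Fermat.Agent.S51.H780.I1

set_option autoImplicit false

namespace Fermat.Agent.S52.H531

open WeierstrassCurve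

/-- `ψ₃` of a long Weierstrass model in the variable `X = 36 x + 3 b₂`. -/
theorem psiQ_of_long (b2 b4 b6 b8 x : ℚ) (hb : 4 * b8 = b2 * b6 - b4 ^ 2) :
    psiQ (b2 ^ 2 - 24 * b4) (-b2 ^ 3 + 36 * b2 * b4 - 216 * b6) (36 * x + 3 * b2)
      = 1679616 * (3 * x ^ 4 + b2 * x ^ 3 + 3 * b4 * x ^ 2 + 3 * b6 * x + b8) := by
  rw [psiQ_eq]
  linear_combination (-419904 : ℚ) * hb

/-- If the `(c₄, c₆)`-quartic of `W` has no rational root then `W[3]` is irreducible. -/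
theorem irr3_of_rootless (W : WeierstrassCurve ℤ) (hΔ : W.Δ ≠ 0)
    (h : ∀ X : ℚ, psiQ (W.c₄ : ℚ) (W.c₆ : ℚ) X ≠ 0) : W.ModRepIsIrreducible 3 := by
  by_contra hirr
  obtain ⟨x, hx⟩ := Fermat.Agent.S51.H780.three_main W hΔ hirr
  apply h (36 * x + 3 * (W.b₂ : ℚ))
  have hb : 4 * (W.b₈ : ℚ) = (W.b₂ : ℚ) * (W.b₆ : ℚ) - (W.b₄ : ℚ) ^ 2 := by
    have := W.b_relation
    exact_mod_cast this
  have hc4 : (W.c₄ : ℚ) = (W.b₂ : ℚ) ^ 2 - 24 * (W.b₄ : ℚ) := by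
    simp only [WeierstrassCurve.c₄]; push_cast; ring
  have hc6 : (W.c₆ : ℚ) = -(W.b₂ : ℚ) ^ 3 + 36 * (W.b₂ : ℚ) * (W.b₄ : ℚ) - 216 * (W.b₆ : ℚ) := by
    simp only [WeierstrassCurve.c₆]; push_cast; ring
  rw [hc4, hc6, psiQ_of_long _ _ _ _ _ hb, hx, mul_zero]

/-- Unfolded variant. -/
theorem irr3_of_rootless' (W : WeierstrassCurve ℤ) (hΔ : W.Δ ≠ 0)
    (h : ∀ X : ℚ, 3 * X ^ 4 - 162 * (W.c₄ : ℚ) * X ^ 2 - 648 * (W.c₆ : ℚ) * X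
      - 729 * (W.c₄ : ℚ) ^ 2 ≠ 0) : W.ModRepIsIrreducible 3 :=
  irr3_of_rootless W hΔ (fun X => by rw [psiQ_eq]; exact h X)

/-- **B3, final form for the switch.**  Let `C4 C6 : ℤ[X]` (degrees `≤ 2w, 3w`) with
`C4(0) = c₄(W)`, `C6(0) = c₆(W)`, where `W[3]` is reducible and `Δ(W) ≠ 0`, and assume the
generic quartic has no root in `ℚ[X]`.  Then in every arithmetic progression `n = r + m k` there
are arbitrarily large `k` such that EVERY integral model `W'` with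
`c₄(W') = n^(2w) C4(T/n)`, `c₆(W') = n^(3w) C6(T/n)` and `Δ(W') ≠ 0` has `W'[3]` irreducible. -/
theorem exists_irr3 (w : ℕ) (C4 C6 : Polynomial ℤ)
    (h4 : C4.natDegree ≤ 2 * w) (h6 : C6.natDegree ≤ 3 * w)
    (W : WeierstrassCurve ℤ) (hΔ : W.Δ ≠ 0) (hred : ¬ W.ModRepIsIrreducible 3)
    (hC4 : C4.eval 0 = W.c₄) (hC6 : C6.eval 0 = W.c₆)
    (hgen : ∀ P : Polynomial ℚ, psiQ (polyK ℚ C4) (polyK ℚ C6) P ≠ 0)
    (T : ℤ) (hT : T ≠ 0) (m : ℕ) (hm : 0 < m) (r : ℕ) (K0 : ℕ) :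
    ∃ k : ℕ, K0 ≤ k ∧ ∀ W' : WeierstrassCurve ℤ, W'.Δ ≠ 0 →
      W'.c₄ = homEval C4 (2 * w) T ((r + m * k : ℕ) : ℤ) →
      W'.c₆ = homEval C6 (3 * w) T ((r + m * k : ℕ) : ℤ) →
      W'.ModRepIsIrreducible 3 := by
  -- the rational root of ψ₀
  obtain ⟨x, hx⟩ := Fermat.Agent.S51.H780.three_main W hΔ hred
  have hb : 4 * (W.b₈ : ℚ) = (W.b₂ : ℚ) * (W.b₆ : ℚ) - (W.b₄ : ℚ) ^ 2 := by
    have := W.b_relation
    exact_mod_cast this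
  have hc4 : (W.c₄ : ℚ) = (W.b₂ : ℚ) ^ 2 - 24 * (W.b₄ : ℚ) := by
    simp only [WeierstrassCurve.c₄]; push_cast; ring
  have hc6 : (W.c₆ : ℚ) = -(W.b₂ : ℚ) ^ 3 + 36 * (W.b₂ : ℚ) * (W.b₄ : ℚ) - 216 * (W.b₆ : ℚ) := by
    simp only [WeierstrassCurve.c₆]; push_cast; ring
  have hx0 : psiQ ((C4.eval 0 : ℤ) : ℚ) ((C6.eval 0 : ℤ) : ℚ) (36 * x + 3 * (W.b₂ : ℚ)) = 0 := by
    rw [hC4, hC6, hc4, hc6, psiQ_of_long _ _ _ _ _ hb, hx, mul_zero]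
  have hdisc : (C4.eval 0) ^ 3 ≠ (C6.eval 0) ^ 2 := by
    rw [hC4, hC6]
    intro heq
    apply hΔ
    have := W.c_relation
    rw [heq] at this
    omega
  obtain ⟨k, hk, hroot⟩ := exists_rootless w C4 C6 h4 h6 hdisc _ hx0 hgen T hT m hm r K0
  refine ⟨k, hk, fun W' hΔ' h4' h6' => ?_⟩
  apply irr3_of_rootless W' hΔ'
  rw [h4', h6']
  exact hroot

end Fermat.Agent.S52.H531
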