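/-
S52 / piece B3, helper531.  B3 + B3n combined: from the syzygy `C4³ - C6² = d · F⁵`
(landed B3n of helper396) to "arbitrarily large `n` in any progression with `W'[3]` irreducible".
-/
import Fermat.Agent.S52.H531.Irr3
import Fermat.Agent.S52.H396.NoRoot

set_option autoImplicit false

namespace Fermat.Agent.S52.H531

open Polynomial

/-- `hgen` from the syzygy, squarefree version (B3n of helper396). -/
theorem hgen_of_squarefree (C4 C6 : ℤ[X]) (F : ℚ[X]) (d : ℚ) (hd : d ≠ 0)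
    (hsyz : (polyK ℚ C4) ^ 3 - (polyK ℚ C6) ^ 2 = C d * F ^ 5) (hF : Squarefree F)
    (hdeg : 3 * (polyK ℚ C4).natDegree ≤ 5 * F.natDegree) (hFpos : 0 < F.natDegree) :
    ∀ P : ℚ[X], psiQ (polyK ℚ C4) (polyK ℚ C6) P ≠ 0 := by
  intro P hP
  have h27 : (C (-27 : ℚ) * polyK ℚ C4).natDegree = (polyK ℚ C4).natDegree :=
    natDegree_C_mul (by norm_num)
  have key := Fermat.Agent.S52.H396.no_poly_root_of_squarefree (k := ℚ) (by norm_num) (by norm_num)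
    (C (-27 : ℚ) * polyK ℚ C4) (C (-54 : ℚ) * polyK ℚ C6) F (-78732 * d)
    (mul_ne_zero (by norm_num) hd)
    (by
      have e : (C (-78732 * d) : ℚ[X]) = C (-78732 : ℚ) * C d := by rw [← C_mul]
      rw [e, mul_assoc, ← hsyz]
      have e27 : (C (-27 : ℚ) : ℚ[X]) = -27 := by rw [C_neg, map_ofNat]
      have e54 : (C (-54 : ℚ) : ℚ[X]) = -54 := by rw [C_neg, map_ofNat]
      have e78 : (C (-78732 : ℚ) : ℚ[X]) = -78732 := by rw [C_neg, map_ofNat]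
      rw [e27, e54, e78]; ring)
    hF (by rw [h27]; exact hdeg) hFpos P
  apply key
  rw [psiQ_eq] at hP
  have e27 : (C (-27 : ℚ) : ℚ[X]) = -27 := by rw [C_neg, map_ofNat]
  have e54 : (C (-54 : ℚ) : ℚ[X]) = -54 := by rw [C_neg, map_ofNat]
  rw [e27, e54]
  linear_combination hP

/-- `hgen` from the syzygy, cube-free + coprime version (B3n of helper396). -/
theorem hgen_of_cubefree (C4 C6 : ℤ[X]) (F : ℚ[X]) (d : ℚ) (hd : d ≠ 0)
    (hsyz : (polyK ℚ C4) ^ 3 - (polyK ℚ C6) ^ 2 = C d * F ^ 5)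
    (hcop : IsCoprime (polyK ℚ C4) (polyK ℚ C6))
    (hF : ∀ π : ℚ[X], Prime π → ¬ π ^ 3 ∣ F)
    (hdeg : 3 * (polyK ℚ C4).natDegree ≤ 5 * F.natDegree) (hFpos : 0 < F.natDegree) :
    ∀ P : ℚ[X], psiQ (polyK ℚ C4) (polyK ℚ C6) P ≠ 0 := by
  intro P hP
  have h27 : (C (-27 : ℚ) * polyK ℚ C4).natDegree = (polyK ℚ C4).natDegree :=
    natDegree_C_mul (by norm_num)
  have u27 : IsUnit (C (-27 : ℚ) : ℚ[X]) := Polynomial.isUnit_C.mpr (IsUnit.mk0 _ (by norm_num))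
  have u54 : IsUnit (C (-54 : ℚ) : ℚ[X]) := Polynomial.isUnit_C.mpr (IsUnit.mk0 _ (by norm_num))
  have hcop' : IsCoprime (C (-27 : ℚ) * polyK ℚ C4) (C (-54 : ℚ) * polyK ℚ C6) := by
    apply (isCoprime_mul_unit_left_left u27 _ _).mpr
    exact (isCoprime_mul_unit_left_right u54 _ _).mpr hcop
  have key := Fermat.Agent.S52.H396.no_poly_root_of_cubefree (k := ℚ) (by norm_num) (by norm_num)
    (C (-27 : ℚ) * polyK ℚ C4) (C (-54 : ℚ) * polyK ℚ C6) F (-78732 * d)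
    (mul_ne_zero (by norm_num) hd)
    (by
      have e : (C (-78732 * d) : ℚ[X]) = C (-78732 : ℚ) * C d := by rw [← C_mul]
      rw [e, mul_assoc, ← hsyz]
      have e27 : (C (-27 : ℚ) : ℚ[X]) = -27 := by rw [C_neg, map_ofNat]
      have e54 : (C (-54 : ℚ) : ℚ[X]) = -54 := by rw [C_neg, map_ofNat]
      have e78 : (C (-78732 : ℚ) : ℚ[X]) = -78732 := by rw [C_neg, map_ofNat]
      rw [e27, e54, e78]; ring)
    hcop' hF (by rw [h27]; exact hdeg) hFpos P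
  apply key
  rw [psiQ_eq] at hP
  have e27 : (C (-27 : ℚ) : ℚ[X]) = -27 := by rw [C_neg, map_ofNat]
  have e54 : (C (-54 : ℚ) : ℚ[X]) = -54 := by rw [C_neg, map_ofNat]
  rw [e27, e54]
  linear_combination hP

/-- **B3 + B3n, final form.** -/
theorem exists_irr3_of_syzygy (w : ℕ) (C4 C6 : ℤ[X])
    (h4 : C4.natDegree ≤ 2 * w) (h6 : C6.natDegree ≤ 3 * w)
    (W : WeierstrassCurve ℤ) (hΔ : W.Δ ≠ 0) (hred : ¬ W.ModRepIsIrreducible 3)
    (hC4 : C4.eval 0 = W.c₄) (hC6 : C6.eval 0 = W.c₆)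
    (F : ℚ[X]) (d : ℚ) (hd : d ≠ 0)
    (hsyz : (polyK ℚ C4) ^ 3 - (polyK ℚ C6) ^ 2 = C d * F ^ 5)
    (hcop : IsCoprime (polyK ℚ C4) (polyK ℚ C6))
    (hF : ∀ π : ℚ[X], Prime π → ¬ π ^ 3 ∣ F)
    (hdeg : 3 * (polyK ℚ C4).natDegree ≤ 5 * F.natDegree) (hFpos : 0 < F.natDegree)
    (T : ℤ) (hT : T ≠ 0) (m : ℕ) (hm : 0 < m) (r : ℕ) (K0 : ℕ) :
    ∃ k : ℕ, K0 ≤ k ∧ ∀ W' : WeierstrassCurve ℤ, W'.Δ ≠ 0 →
      W'.c₄ = homEval C4 (2 * w) T ((r + m * k : ℕ) : ℤ) →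
      W'.c₆ = homEval C6 (3 * w) T ((r + m * k : ℕ) : ℤ) →
      W'.ModRepIsIrreducible 3 :=
  exists_irr3 w C4 C6 h4 h6 W hΔ hred hC4 hC6
    (hgen_of_cubefree C4 C6 F d hd hsyz hcop hF hdeg hFpos) T hT m hm r K0

end Fermat.Agent.S52.H531
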